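import Mathlib
import Fermat.Agent.VanDerWaerden.Criterion
import Fermat.Agent.Local.Minkowski

/-!
# Symmetric polynomials with pairwise different sign characters

By the Chinese remainder theorem there are monic integral polynomials of degree `n` with group `Sₙ`
such that for any two of them some prime makes their product `quadratic × distinct linear`. A
Frobenius element there is a transposition on the roots of one and trivial on those of the other, so
the sign characters of the absolute Galois group are pairwise different.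
-/

set_option autoImplicit false

noncomputable section

namespace Fermat.Agent.FreeGenerators

open Polynomial VanDerWaerden
open scoped Polynomial Nat

local notation "Qb" => AlgebraicClosure ℚ
local notation "GQ" => AlgebraicClosure ℚ ≃ₐ[ℚ] AlgebraicClosure ℚ

/-- A residue vector of each of the three types, and a split one disjoint from the last. -/
theorem exists_residues {n p : ℕ} [Fact p.Prime] (hn : 3 ≤ n) (hp : 4 * n ≤ p) :
    ∃ a₁ a₂ a₃ b : Fin n → ZMod p, a₁ ∈ irrSet p n ∧ a₂ ∈ rootSetType p n ∧ a₃ ∈ swapType p n ∧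
      ∃ c ∈ swapType p (n + n), monicOf c = monicOf a₃ * monicOf b := by
  classical
  have hp3 : 3 ≤ p := by omega
  have hpos : ∀ m, 0 < p ^ m := fun m => pow_pos (by omega) m
  have hne : ∀ {C c m : ℕ}, p ^ m ≤ C * c → 0 < c := fun {C c m} h => by
    rcases Nat.eq_zero_or_pos c with rfl | h0
    · have := hpos m; omega
    · exact h0
  obtain ⟨a₁, ha₁⟩ := Finset.card_pos.1 (hne (pow_le_card_irrSet (p := p) hp3 (d := n) (by omega)))
  obtain ⟨a₂, ha₂⟩ := Finset.card_pos.1 (hne (pow_le_card_rootSetType (p := p) hp3 hn))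
  obtain ⟨q', hq'⟩ := Finset.card_pos.1 (hne (pow_le_card_irrSet (p := p) hp3 (d := 2) two_pos))
  set q := monicOf q'
  have hq : Irreducible q := mem_irrSet.1 hq'
  have hinj : ∀ r : ℕ, r + n ≤ p → Set.InjOn (fun i : ℕ => ((i + r : ℕ) : ZMod p))
      (Finset.range n : Set ℕ) := fun r hr i hi j hj h => by
    rw [Finset.coe_range, Set.mem_Iio] at hi hj
    have h' := (ZMod.natCast_eq_natCast_iff' _ _ _).1 h
    rw [Nat.mod_eq_of_lt (by omega), Nat.mod_eq_of_lt (by omega)] at h'
    omega
  set S := (Finset.range (n - 2)).image fun i => ((i + 0 : ℕ) : ZMod p)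
  set T := (Finset.range n).image fun i => ((i + n : ℕ) : ZMod p)
  have hS : S.card = n - 2 := by
    rw [Finset.card_image_of_injOn ((hinj 0 (by omega)).mono
      (Finset.coe_subset.2 (Finset.range_mono (by omega)))), Finset.card_range]
  have hT : T.card = n := by
    rw [Finset.card_image_of_injOn (hinj n (by omega)), Finset.card_range]
  have hST : Disjoint S T := by
    rw [Finset.disjoint_left]
    rintro x hxS hxT
    obtain ⟨i, hi, rfl⟩ := Finset.mem_image.1 hxS
    obtain ⟨j, hj, h⟩ := Finset.mem_image.1 hxT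
    rw [Finset.mem_range] at hi hj
    have h' := (ZMod.natCast_eq_natCast_iff' _ _ _).1 h
    rw [Nat.mod_eq_of_lt (by omega), Nat.mod_eq_of_lt (by omega)] at h'
    omega
  have hmon : ∀ U : Finset (ZMod p), (∏ c ∈ U, (X - C c)).Monic := fun U =>
    monic_prod_of_monic _ _ fun _ _ => monic_X_sub_C _
  have hqm : q.Monic := monicOf_monic q'
  have hq2 : q.natDegree = 2 := natDegree_monicOf q'
  have hdegU : ∀ U : Finset (ZMod p), (∏ c ∈ U, (X - C c)).natDegree = U.card := fun U => by
    rw [natDegree_prod_of_monic _ _ fun _ _ => monic_X_sub_C _]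
    simp
  have hd₃ : (q * ∏ c ∈ S, (X - C c)).natDegree = n := by
    rw [hqm.natDegree_mul (hmon S), hdegU, hq2, hS]
    omega
  have hd : (q * ∏ c ∈ S ∪ T, (X - C c)).natDegree = n + n := by
    rw [hqm.natDegree_mul (hmon _), hdegU, hq2, Finset.card_union_of_disjoint hST, hS, hT]
    omega
  have hST' : (S ∪ T).card = n + n - 2 := by
    rw [Finset.card_union_of_disjoint hST, hS, hT]
    omega
  obtain ⟨a₃, ha₃⟩ : ∃ a : Fin n → ZMod p, monicOf a = q * ∏ c ∈ S, (X - C c) :=
    ⟨_, exists_monicOf (hqm.mul (hmon S)) hd₃⟩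
  obtain ⟨b, hb⟩ : ∃ a : Fin n → ZMod p, monicOf a = ∏ c ∈ T, (X - C c) :=
    ⟨_, exists_monicOf (hmon T) ((hdegU T).trans hT)⟩
  obtain ⟨c, hc⟩ : ∃ a : Fin (n + n) → ZMod p, monicOf a = q * ∏ c ∈ S ∪ T, (X - C c) :=
    ⟨_, exists_monicOf (hqm.mul (hmon _)) hd⟩
  have hm₃ : a₃ ∈ swapType p n := mem_swapType.2 ⟨S, q, hq, hq2, hS, ha₃⟩
  have hmc : c ∈ swapType p (n + n) := mem_swapType.2 ⟨S ∪ T, q, hq, hq2, hST', hc⟩
  refine ⟨a₁, a₂, a₃, b, ha₁, ha₂, hm₃, c, hmc, ?_⟩
  rw [hc, ha₃, hb, Finset.prod_union hST, mul_assoc]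

/-- Vectors with the three types, any two of which have a product of swap type at some prime and
differ. -/
theorem exists_vectors {n : ℕ} (hn : 3 ≤ n) (k : ℕ) :
    ∃ a : Fin k → Fin n → ℤ,
      (∀ j, ∃ (p₁ p₂ p₃ : ℕ) (_ : Fact p₁.Prime) (_ : Fact p₂.Prime) (_ : Fact p₃.Prime),
        (fun i => (a j i : ZMod p₁)) ∈ irrSet p₁ n ∧
        (fun i => (a j i : ZMod p₂)) ∈ rootSetType p₂ n ∧
        (fun i => (a j i : ZMod p₃)) ∈ swapType p₃ n) ∧
      ∀ j l, j ≠ l → a j ≠ a l ∧ ∃ (p : ℕ) (_ : Fact p.Prime) (c : Fin (n + n) → ZMod p),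
        c ∈ swapType p (n + n) ∧
          (monicOf (a j) * monicOf (a l)).map (Int.castRingHom (ZMod p)) = monicOf c := by
  classical
  have hinf : {p : ℕ | p.Prime ∧ 4 * n ≤ p}.Infinite :=
    Set.infinite_of_forall_exists_gt fun m => by
      obtain ⟨p, hp, hp'⟩ := Nat.exists_infinite_primes (m + 1 + 4 * n)
      exact ⟨p, ⟨hp', by omega⟩, by omega⟩
  let e := hinf.natEmbedding
  let P : Fin k × Fin 3 → ℕ := fun x => (e (Fintype.equivFin (Fin k × Fin 3) x) : ℕ)
  have hP : Function.Injective P := fun x y h =>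
    (Fintype.equivFin _).injective (Fin.ext (e.injective (Subtype.ext h)))
  have hPp : ∀ x, (P x).Prime := fun x => (e _).2.1
  have hPn : ∀ x, 4 * n ≤ P x := fun x => (e _).2.2
  have hfact : ∀ x, Fact (P x).Prime := fun x => ⟨hPp x⟩
  choose a₁ a₂ a₃ b ha₁ ha₂ ha₃ c hc hmul using fun x =>
    exists_residues (p := P x) hn (hPn x)
  let r : Fin k → (x : Fin k × Fin 3) → Fin n → ZMod (P x) := fun j x =>
    if x.1 = j then (if x.2 = 0 then a₁ x else if x.2 = 1 then a₂ x else a₃ x)
    else (if x.2 = 2 then b x else 0)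
  have hex : ∀ (j : Fin k) (i : Fin n), ∃ z : ℤ, ∀ x, (z : ZMod (P x)) = r j x i := fun j i => by
    obtain ⟨z, hz⟩ := Nat.chineseRemainderOfFinset (fun x => (r j x i).val) P Finset.univ
      (fun x _ => (hPp x).ne_zero)
      fun x _ y _ hxy => (Nat.coprime_primes (hPp x) (hPp y)).2 (hP.ne hxy)
    refine ⟨z, fun x => ?_⟩
    rw [Int.cast_natCast, (ZMod.natCast_eq_natCast_iff z _ _).2 (hz x (Finset.mem_univ x)),
      ZMod.natCast_zmod_val]
  choose a ha using hex
  have hred : ∀ j x, (fun i => (a j i : ZMod (P x))) = r j x := fun j x => funext fun i => ha j i x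
  refine ⟨a, fun j => ⟨P (j, 0), P (j, 1), P (j, 2), hfact _, hfact _, hfact _, ?_, ?_, ?_⟩,
    fun j l hjl => ⟨fun heq => ?_, P (j, 2), hfact _, c (j, 2), hc _, ?_⟩⟩
  · simp only [hred, r]
    simpa using ha₁ (j, 0)
  · simp only [hred, r]
    simpa using ha₂ (j, 1)
  · simp only [hred, r]
    simpa using ha₃ (j, 2)
  · have h1 : r j (j, 0) = r l (j, 0) := by rw [← hred, ← hred, heq]
    simp only [r, if_true, if_neg hjl] at h1
    have h2 := mem_irrSet.1 (ha₁ (j, 0))
    rw [h1, if_neg (by decide)] at h2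
    refine no_root_of_irreducible h2 (by rw [natDegree_monicOf]; omega) 0 ?_
    simp [monicOf, zero_pow (by omega : n ≠ 0)]
  · rw [Polynomial.map_mul, map_monicOf, map_monicOf, hmul]
    congr 1
    · refine congrArg monicOf ((hred j (j, 2)).trans ?_)
      simp [r]
    · refine congrArg monicOf ((hred l (j, 2)).trans ?_)
      simp [r, if_neg hjl]

/-- The splitting field inside `ℚ̄`. -/
abbrev splitField (f : ℤ[X]) : IntermediateField ℚ Qb :=
  IntermediateField.adjoin ℚ ((f.map (Int.castRingHom ℚ)).rootSet Qb)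

instance isSplittingField_splitField (f : ℤ[X]) :
    IsSplittingField ℚ (splitField f) (f.map (Int.castRingHom ℚ)) :=
  IntermediateField.adjoin_rootSet_isSplittingField (IsAlgClosed.splits _)

/-- Automorphisms of the splitting field extend, compatibly with the actions on the roots. -/
theorem exists_extend (f : ℤ[X]) (σ : splitField f ≃ₐ[ℚ] splitField f) :
    ∃ g : GQ, ∀ x : splitField f, g x = (σ x : Qb) := by
  have : IsGalois ℚ Qb := FA.Local.isGalois_qbar
  have : Normal ℚ (splitField f) := Normal.of_isSplittingField (f.map (Int.castRingHom ℚ))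
  obtain ⟨g, hg⟩ := AlgEquiv.restrictNormalHom_surjective (F := ℚ) (K₁ := splitField f) Qb σ
  exact ⟨g, fun x => by rw [← hg]; exact (AlgEquiv.restrictNormal_commutes g _ x).symm⟩

/-- The kernel of the action on the roots is open. -/
theorem isOpen_rootsAction_ker (f : ℤ[X]) :
    IsOpen ((rootsAction (L := Qb) f).ker : Set GQ) := by
  have : FiniteDimensional ℚ (splitField f) :=
    IsSplittingField.finiteDimensional _ (f.map (Int.castRingHom ℚ))
  refine Subgroup.isOpen_mono (fun σ hσ => ?_)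
    (IntermediateField.fixingSubgroup_isOpen (splitField f))
  refine MonoidHom.mem_ker.2 (Equiv.ext fun x => Subtype.ext ?_)
  exact (IntermediateField.mem_fixingSubgroup_iff _ σ).1 hσ x
    (IntermediateField.subset_adjoin ℚ _ x.2)

variable {n : ℕ}

/-- A polynomial with the three types has all permutations of its roots induced by `Gal(ℚ̄/ℚ)`. -/
theorem rootsAction_surjective (hn : 2 ≤ n) {a : Fin n → ℤ} {p₁ p₂ p₃ : ℕ}
    [Fact p₁.Prime] [Fact p₂.Prime] [Fact p₃.Prime]
    (h₁ : (fun i => (a i : ZMod p₁)) ∈ irrSet p₁ n)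
    (h₂ : 3 ≤ n → (fun i => (a i : ZMod p₂)) ∈ rootSetType p₂ n)
    (h₃ : (fun i => (a i : ZMod p₃)) ∈ swapType p₃ n) :
    Irreducible ((monicOf a).map (Int.castRingHom ℚ)) ∧
      Fintype.card (((monicOf a).map (Int.castRingHom ℚ)).rootSet Qb) = n ∧
      Function.Surjective (rootsAction (L := Qb) (monicOf a)) := by
  classical
  set f := monicOf a
  set L := splitField f
  obtain ⟨hirr, ⟨e⟩⟩ := nonempty_perm_of_types (L := L) hn h₁ h₂ h₃
  have hdeg : (f.map (Int.castRingHom ℚ)).natDegree = n := by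
    rw [(monicOf_monic a).natDegree_map, natDegree_monicOf]
  have hcard : ∀ (E : Type) [Field E] [Algebra ℚ E],
      ((f.map (Int.castRingHom ℚ)).map (algebraMap ℚ E)).Splits →
      Fintype.card ((f.map (Int.castRingHom ℚ)).rootSet E) = n := fun E _ _ hs => by
    rw [card_rootSet_eq_natDegree hirr.separable hs, hdeg]
  have hL := hcard L (IsSplittingField.splits L _)
  refine ⟨hirr, hcard Qb (IsAlgClosed.splits _), fun π => ?_⟩
  -- the roots in `L` are all roots
  let ι : (f.map (Int.castRingHom ℚ)).rootSet L → (f.map (Int.castRingHom ℚ)).rootSet Qb :=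
    fun x => ⟨(x : L), mem_rootSet.2 ⟨(mem_rootSet.1 x.2).1, by
      rw [← IntermediateField.coe_val, aeval_algHom_apply, (mem_rootSet.1 x.2).2, map_zero]⟩⟩
  have hι : Function.Bijective ι :=
    (Fintype.bijective_iff_injective_and_card ι).2 ⟨fun x y h =>
      Subtype.ext (Subtype.ext (Subtype.mk.inj h :)), by
      rw [hL, hcard Qb (IsAlgClosed.splits _)]⟩
  have hbij : Function.Bijective (rootsAction (L := L) f) := by
    refine (Nat.bijective_iff_injective_and_card _).2 ⟨rootsAction_injective f, ?_⟩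
    rw [Nat.card_congr e.toEquiv, Nat.card_perm, Nat.card_perm, Nat.card_eq_fintype_card,
      Nat.card_eq_fintype_card, Fintype.card_fin, hL]
  let E := Equiv.ofBijective ι hι
  obtain ⟨σ, hσ⟩ := hbij.2 (E.symm.permCongr π)
  obtain ⟨g, hg⟩ := exists_extend f σ
  refine ⟨g, Equiv.ext fun x => Subtype.ext ?_⟩
  obtain ⟨y, rfl⟩ := E.surjective x
  refine Eq.trans (hg y) ?_
  have h := Equiv.congr_fun hσ y
  simp only [Equiv.permCongr_apply, Equiv.symm_symm] at h
  show (((rootsAction f σ y : _) : L) : Qb) = _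
  rw [h]
  exact congrArg Subtype.val (E.apply_symm_apply (π (E y)))

/-- Two such polynomials have different sign characters. -/
theorem sign_rootsAction_ne [DecidableEq Qb] {a b : Fin n → ℤ} (hab : a ≠ b)
    (ha : Irreducible ((monicOf a).map (Int.castRingHom ℚ)))
    (hb : Irreducible ((monicOf b).map (Int.castRingHom ℚ))) {p : ℕ} [Fact p.Prime]
    {c : Fin (n + n) → ZMod p} (hc : c ∈ swapType p (n + n))
    (hmap : (monicOf a * monicOf b).map (Int.castRingHom (ZMod p)) = monicOf c) :
    ∃ g : GQ, Equiv.Perm.sign (rootsAction (monicOf a) g) ≠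
      Equiv.Perm.sign (rootsAction (monicOf b) g) := by
  classical
  set F := monicOf a * monicOf b with hF
  set L := splitField F
  obtain ⟨σ, u, v, huv, hσ⟩ :=
    exists_swap_of_swapType (L := L) F ((monicOf_monic a).mul (monicOf_monic b)) hc hmap
  obtain ⟨g, hg⟩ := exists_extend F σ
  refine ⟨g, ?_⟩
  have huv' : ((u : L) : Qb) ≠ (v : L) := fun h => huv (Subtype.ext (Subtype.ext h))
  have hu : ((u : L) : Qb) ∈ (F.map (Int.castRingHom ℚ)).rootSet Qb :=
    mem_rootSet.2 ⟨(mem_rootSet.1 u.2).1, by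
      rw [← IntermediateField.coe_val, aeval_algHom_apply, (mem_rootSet.1 u.2).2, map_zero]⟩
  -- `g` exchanges `u` and `v` and fixes the other roots of the product
  have hswap : ∀ x ∈ (F.map (Int.castRingHom ℚ)).rootSet Qb,
      g x = Equiv.swap ((u : L) : Qb) (v : L) x := fun x hx => by
    set y : L := ⟨x, IntermediateField.subset_adjoin ℚ _ hx⟩
    have hy : y ∈ (F.map (Int.castRingHom ℚ)).rootSet L := by
      refine mem_rootSet.2 ⟨(mem_rootSet.1 hx).1,
        (map_eq_zero_iff L.val Subtype.val_injective).1 ?_⟩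
      rw [← aeval_algHom_apply]
      exact (mem_rootSet.1 hx).2
    refine (hg y).trans ?_
    have h := congrArg (fun z => ((Subtype.val z : L) : Qb)) (Equiv.congr_fun hσ ⟨y, hy⟩)
    refine Eq.trans h ?_
    by_cases h1 : (⟨y, hy⟩ : (F.map (Int.castRingHom ℚ)).rootSet L) = u
    · rw [show x = ((u : L) : Qb) from congrArg Subtype.val (congrArg Subtype.val h1), h1]
      simp
    by_cases h2 : (⟨y, hy⟩ : (F.map (Int.castRingHom ℚ)).rootSet L) = v
    · rw [show x = ((v : L) : Qb) from congrArg Subtype.val (congrArg Subtype.val h2), h2]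
      simp
    rw [Equiv.swap_apply_of_ne_of_ne h1 h2, Equiv.swap_apply_of_ne_of_ne]
    · exact fun h3 => h1 (Subtype.ext (Subtype.ext h3))
    · exact fun h3 => h2 (Subtype.ext (Subtype.ext h3))
  have hmem : ∀ {d : Fin n → ℤ}, monicOf d ∣ F →
      ∀ x ∈ ((monicOf d).map (Int.castRingHom ℚ)).rootSet Qb,
        x ∈ (F.map (Int.castRingHom ℚ)).rootSet Qb := fun {d} hd x hx =>
    mem_rootSet.2 ⟨((((monicOf_monic a).mul (monicOf_monic b))).map _).ne_zero,
      aeval_eq_zero_of_dvd_aeval_eq_zero (Polynomial.map_dvd _ hd) (mem_rootSet.1 hx).2⟩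
  -- no common root
  have hno : ∀ x, x ∈ ((monicOf a).map (Int.castRingHom ℚ)).rootSet Qb →
      x ∉ ((monicOf b).map (Int.castRingHom ℚ)).rootSet Qb := fun x hxa hxb => hab (by
    have h1 := minpoly.eq_of_irreducible_of_monic ha (mem_rootSet.1 hxa).2
      ((monicOf_monic a).map _)
    have h2 := minpoly.eq_of_irreducible_of_monic hb (mem_rootSet.1 hxb).2
      ((monicOf_monic b).map _)
    exact monicOf_injective (map_injective _ Int.cast_injective (h1.trans h2.symm)))
  -- one action is a transposition, the other trivial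
  have key : ∀ (d d' : Fin n → ℤ), monicOf d ∣ F → monicOf d' ∣ F →
      (∀ x, x ∈ ((monicOf d).map (Int.castRingHom ℚ)).rootSet Qb →
        x ∉ ((monicOf d').map (Int.castRingHom ℚ)).rootSet Qb) →
      ((u : L) : Qb) ∈ ((monicOf d).map (Int.castRingHom ℚ)).rootSet Qb →
      Equiv.Perm.sign (rootsAction (monicOf d) g) = -1 ∧
        Equiv.Perm.sign (rootsAction (monicOf d') g) = 1 := by
    intro d d' hd hd' hdis hud
    have hvd : ((v : L) : Qb) ∈ ((monicOf d).map (Int.castRingHom ℚ)).rootSet Qb := by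
      have h := (rootsAction (monicOf d) g ⟨_, hud⟩).2
      rwa [rootsAction_apply, hswap _ (hmem hd _ hud), Equiv.swap_apply_left] at h
    constructor
    · let u' : ((monicOf d).map (Int.castRingHom ℚ)).rootSet Qb := ⟨_, hud⟩
      let v' : ((monicOf d).map (Int.castRingHom ℚ)).rootSet Qb := ⟨_, hvd⟩
      have huv'' : u' ≠ v' := fun h => huv' (Subtype.ext_iff.1 h :)
      have heq : rootsAction (monicOf d) g = Equiv.swap u' v' :=
        Equiv.ext fun x => Subtype.ext (by
          rw [rootsAction_apply, hswap _ (hmem hd _ x.2)]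
          exact Function.Injective.swap_apply Subtype.val_injective u' v' x)
      rw [heq, Equiv.Perm.sign_swap huv'']
    · have heq : rootsAction (monicOf d') g = 1 := Equiv.ext fun x => Subtype.ext (by
        rw [rootsAction_apply, hswap _ (hmem hd' _ x.2)]
        exact Equiv.swap_apply_of_ne_of_ne (fun h => hdis _ hud (h ▸ x.2))
          (fun h => hdis _ hvd (h ▸ x.2)))
      rw [heq, map_one]
  rcases mul_eq_zero.1 (show aeval ((u : L) : Qb) ((monicOf a).map (Int.castRingHom ℚ)) *
      aeval ((u : L) : Qb) ((monicOf b).map (Int.castRingHom ℚ)) = 0 by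
    rw [← map_mul, ← Polynomial.map_mul]; exact (mem_rootSet.1 hu).2) with h | h
  · obtain ⟨h1, h2⟩ := key a b (dvd_mul_right _ _) (dvd_mul_left _ _) hno
      (mem_rootSet.2 ⟨ha.ne_zero, h⟩)
    rw [h1, h2]
    decide
  · obtain ⟨h1, h2⟩ := key b a (dvd_mul_left _ _) (dvd_mul_right _ _)
      (fun x hx hx' => hno x hx' hx) (mem_rootSet.2 ⟨hb.ne_zero, h⟩)
    rw [h1, h2]
    decide

/-- **Surjections onto `Sₙ` with pairwise different signs.** -/
theorem exists_perm_homs (hn : 3 ≤ n) (k : ℕ) :
    ∃ ψ : Fin k → (GQ →* Equiv.Perm (Fin n)),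
      (∀ j, Function.Surjective (ψ j) ∧ IsOpen ((ψ j).ker : Set GQ)) ∧
        ∀ j l, j ≠ l → ∃ g, Equiv.Perm.sign (ψ j g) ≠ Equiv.Perm.sign (ψ l g) := by
  classical
  obtain ⟨a, htypes, hpair⟩ := exists_vectors hn k
  have hroots : ∀ j, Irreducible ((monicOf (a j)).map (Int.castRingHom ℚ)) ∧
      Fintype.card (((monicOf (a j)).map (Int.castRingHom ℚ)).rootSet Qb) = n ∧
      Function.Surjective (rootsAction (L := Qb) (monicOf (a j))) := fun j => by
    obtain ⟨p₁, p₂, p₃, _, _, _, h₁, h₂, h₃⟩ := htypes j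
    exact rootsAction_surjective (by omega) h₁ (fun _ => h₂) h₃
  let E := fun j => Fintype.equivFinOfCardEq (hroots j).2.1
  refine ⟨fun j => (E j).permCongrHom.toMonoidHom.comp (rootsAction (monicOf (a j))),
    fun j => ⟨(E j).permCongrHom.surjective.comp (hroots j).2.2, ?_⟩, fun j l hjl => ?_⟩
  · refine Subgroup.isOpen_mono (fun σ hσ => ?_) (isOpen_rootsAction_ker (monicOf (a j)))
    rw [MonoidHom.mem_ker] at hσ ⊢
    rw [MonoidHom.comp_apply, hσ, map_one]
  · obtain ⟨hne, p, _, c, hc, hmap⟩ := hpair j l hjl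
    obtain ⟨g, hg⟩ := sign_rootsAction_ne hne (hroots j).1 (hroots l).1 hc hmap
    refine ⟨g, fun h => hg ?_⟩
    simpa [Equiv.permCongrHom] using h

end Fermat.Agent.FreeGenerators
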