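import Mathlib
import Fermat.Agent.FreeGenerators.Polynomials

/-!
# Disjoint `Sₙ`-extensions over every number field

Of more polynomials than there are functions on a finite quotient some sign character is not
constant on the kernel, whose image, a normal subgroup of `Sₙ` with an odd element, is then
everything.
-/

set_option autoImplicit false

noncomputable section

namespace Fermat.Agent.FreeGenerators

local notation "Qb" => AlgebraicClosure ℚ
local notation "GQ" => AlgebraicClosure ℚ ≃ₐ[ℚ] AlgebraicClosure ℚ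

variable {n : ℕ}

/-- **An `Sₙ`-extension disjoint from a given finite quotient.** -/
theorem exists_perm_hom_onto_ker (hn : 5 ≤ n) {Γ : Type*} [Group Γ] [Finite Γ] (ρ : GQ →* Γ) :
    ∃ ψ : GQ →* Equiv.Perm (Fin n), IsOpen (ψ.ker : Set GQ) ∧ ∀ π, ∃ σ, ρ σ = 1 ∧ ψ σ = π := by
  classical
  have : Fintype Γ := Fintype.ofFinite Γ
  obtain ⟨ψ, hψ, hsgn⟩ := exists_perm_homs (n := n) (by omega) (Fintype.card (Γ → ℤˣ) + 1)
  -- some sign is not trivial on the kernel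
  obtain ⟨j, τ, hτ, hodd⟩ : ∃ j τ, ρ τ = 1 ∧ Equiv.Perm.sign (ψ j τ) ≠ 1 := by
    by_contra! hcon
    let f : Fin (Fintype.card (Γ → ℤˣ) + 1) → (Γ → ℤˣ) := fun j γ =>
      if h : ∃ σ, ρ σ = γ then Equiv.Perm.sign (ψ j h.choose) else 1
    have hf : ∀ j σ, f j (ρ σ) = Equiv.Perm.sign (ψ j σ) := fun j σ => by
      have h : ∃ τ, ρ τ = ρ σ := ⟨σ, rfl⟩
      simp only [f, dif_pos h]
      have h1 := hcon j (h.choose⁻¹ * σ) (by rw [map_mul, map_inv, h.choose_spec, inv_mul_cancel])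
      rw [map_mul, map_mul, map_inv, map_inv, inv_mul_eq_one] at h1
      exact h1
    obtain ⟨j, l, hjl, heq⟩ := Fintype.exists_ne_map_eq_of_card_lt f (by simp)
    obtain ⟨g, hg⟩ := hsgn j l hjl
    exact hg (by rw [← hf, ← hf, heq])
  refine ⟨ψ j, (hψ j).2, fun π => ?_⟩
  set U := ρ.ker.map (ψ j)
  have : U.Normal := (MonoidHom.normal_ker ρ).map _ (hψ j).1
  have hmem : ψ j τ ∈ U := ⟨τ, hτ, rfl⟩
  have hU : Nontrivial U := ⟨⟨ψ j τ, hmem⟩, 1, fun h => hodd (by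
    rw [show ψ j τ = 1 from congrArg Subtype.val h, map_one])⟩
  have hle := Equiv.Perm.alternatingGroup_le_of_normal (α := Fin n) (N := U) (by simpa using hn) hU
  suffices h : π ∈ U by
    obtain ⟨σ, hσ, rfl⟩ := h
    exact ⟨σ, hσ, rfl⟩
  by_cases hπ : Equiv.Perm.sign π = 1
  · exact hle hπ
  · have h : π * (ψ j τ)⁻¹ ∈ U := hle (by
      rw [Equiv.Perm.mem_alternatingGroup, map_mul, map_inv,
        (Int.units_eq_one_or _).resolve_left hπ, (Int.units_eq_one_or _).resolve_left hodd,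
        mul_inv_cancel])
    simpa using mul_mem h hmem

/-- Any number of them at once. -/
theorem exists_perm_pow_onto_ker (hn : 5 ≤ n) :
    ∀ (m : ℕ) {Γ : Type} [Group Γ] [Finite Γ] (ρ : GQ →* Γ),
      ∃ Ψ : GQ →* (Fin m → Equiv.Perm (Fin n)), IsOpen (Ψ.ker : Set GQ) ∧
        ∀ x, ∃ σ, ρ σ = 1 ∧ Ψ σ = x := by
  intro m
  induction m with
  | zero =>
    intro Γ _ _ ρ
    exact ⟨1, by rw [MonoidHom.ker_one]; exact isOpen_univ,
      fun x => ⟨1, map_one ρ, funext fun i => i.elim0⟩⟩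
  | succ m ih =>
    intro Γ _ _ ρ
    obtain ⟨Ψ, hΨo, hΨ⟩ := ih ρ
    obtain ⟨ψ, hψo, hψ⟩ := exists_perm_hom_onto_ker hn (ρ.prod Ψ)
    let Φ : GQ →* (Fin (m + 1) → Equiv.Perm (Fin n)) :=
      MonoidHom.mk' (fun σ => Fin.cons (ψ σ) (Ψ σ)) fun σ τ => by
        funext i
        refine Fin.cases ?_ ?_ i <;> simp
    refine ⟨Φ, Subgroup.isOpen_mono (H₁ := ψ.ker ⊓ Ψ.ker) (fun σ hσ => ?_) (hψo.inter hΨo),
      fun x => ?_⟩
    · rw [Subgroup.mem_inf, MonoidHom.mem_ker, MonoidHom.mem_ker] at hσ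
      rw [MonoidHom.mem_ker]
      funext i
      refine Fin.cases ?_ ?_ i <;> simp [Φ, hσ.1, hσ.2]
    · obtain ⟨σ, hσ, hσx⟩ := hΨ (Fin.tail x)
      obtain ⟨τ, hτ, hτx⟩ := hψ ((ψ σ)⁻¹ * x 0)
      have hτ' := Prod.ext_iff.1 hτ
      refine ⟨σ * τ, by rw [map_mul, hσ, show ρ τ = 1 from hτ'.1, one_mul], ?_⟩
      show Fin.cons (ψ (σ * τ)) (Ψ (σ * τ)) = x
      rw [map_mul, map_mul, hτx, show Ψ τ = 1 from hτ'.2, mul_inv_cancel_left, mul_one, hσx,
        Fin.cons_self_tail]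

/-- **`Sₙ ^ m` over every number field.** -/
theorem exists_perm_pow_numberField (hn : 5 ≤ n) (m : ℕ) (F : IntermediateField ℚ Qb)
    [FiniteDimensional ℚ F] :
    ∃ Ψ : GQ →* (Fin m → Equiv.Perm (Fin n)), IsOpen (Ψ.ker : Set GQ) ∧
      ∀ x, ∃ σ ∈ F.fixingSubgroup, Ψ σ = x := by
  have : IsGalois ℚ Qb := FA.Local.isGalois_qbar
  have : F.fixingSubgroup.FiniteIndex := ⟨by
    rw [← IntermediateField.finrank_eq_fixingSubgroup_index]
    exact Module.finrank_pos.ne'⟩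
  obtain ⟨Ψ, h1, h2⟩ := exists_perm_pow_onto_ker hn m
    (MulAction.toPermHom GQ (GQ ⧸ F.fixingSubgroup))
  refine ⟨Ψ, h1, fun x => ?_⟩
  obtain ⟨σ, hσ, hσx⟩ := h2 x
  refine ⟨σ, ?_, hσx⟩
  have h := Equiv.congr_fun hσ ((1 : GQ) : GQ ⧸ F.fixingSubgroup)
  rw [MulAction.toPermHom_apply, MulAction.toPerm_apply, Equiv.Perm.one_apply,
    MulAction.Quotient.smul_mk, QuotientGroup.eq, smul_eq_mul, mul_one, mul_one] at h
  exact inv_mem_iff.1 h

end Fermat.Agent.FreeGenerators
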