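import Mathlib

/-!
# An invariant probability on a group with many independent finite quotients

Surjections onto finite groups with open kernel push an invariant probability to the counting one;
so if for every `m` there is a surjection onto `Q ^ m` then almost every element has a given value
in some coordinate.
-/

set_option autoImplicit false

namespace Fermat.Agent.FreeGenerators

open MeasureTheory Filter
open scoped Topology ENNReal

variable {X : Type*} [Group X] [TopologicalSpace X] [SeparatelyContinuousMul X] [MeasurableSpace X]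
  [BorelSpace X] (μ : Measure X) [IsProbabilityMeasure μ] [μ.IsMulLeftInvariant]

/-- The push forward to a finite quotient is uniform. -/
theorem measure_preimage_mul_card {Q : Type*} [Group Q] [Fintype Q] (f : X →* Q)
    (hf : Function.Surjective f) (hopen : IsOpen (f.ker : Set X)) (s : Finset Q) :
    μ (f ⁻¹' s) * (Fintype.card Q : ℝ≥0∞) = (s.card : ℝ≥0∞) := by
  classical
  have hfib : ∀ x : X, f ⁻¹' {f x} = (fun h => x⁻¹ * h) ⁻¹' (f.ker : Set X) := fun x => by
    ext y
    rw [Set.mem_preimage, Set.mem_singleton_iff, Set.mem_preimage, SetLike.mem_coe,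
      MonoidHom.mem_ker, map_mul, map_inv, inv_mul_eq_one, eq_comm]
  have hmeas : ∀ y : Q, MeasurableSet (f ⁻¹' {y}) := fun y => by
    obtain ⟨x, rfl⟩ := hf y
    rw [hfib]
    exact (hopen.preimage (continuous_const_mul x⁻¹)).measurableSet
  have heq : ∀ y : Q, μ (f ⁻¹' {y}) = μ (f.ker : Set X) := fun y => by
    obtain ⟨x, rfl⟩ := hf y
    rw [hfib, measure_preimage_mul]
  have hsum : ∀ t : Finset Q, μ (f ⁻¹' t) = t.card * μ (f.ker : Set X) := fun t => by
    rw [← sum_measure_preimage_singleton t fun y _ => hmeas y,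
      Finset.sum_congr rfl fun y _ => heq y,
      Finset.sum_const, nsmul_eq_mul]
  have htot : (Fintype.card Q : ℝ≥0∞) * μ (f.ker : Set X) = 1 := by
    rw [← Finset.card_univ, ← hsum, Finset.coe_univ, Set.preimage_univ, measure_univ]
  rw [hsum, mul_assoc, mul_comm (μ _), htot, mul_one]

/-- **A given value in some coordinate almost surely.** -/
theorem ae_exists_value {Q : Type*} [Group Q] [Finite Q] (y : Q) (P : X → Prop)
    (hP : ∀ m : ℕ, ∃ f : X →* (Fin m → Q), Function.Surjective f ∧ IsOpen (f.ker : Set X) ∧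
      ∀ x i, f x i = y → P x) :
    ∀ᵐ x ∂μ, P x := by
  classical
  have : Fintype Q := Fintype.ofFinite Q
  set r : ℝ≥0∞ := ((Fintype.card Q - 1 : ℕ) : ℝ≥0∞) / (Fintype.card Q : ℝ≥0∞)
  have hQ : 0 < Fintype.card Q := Fintype.card_pos
  have hr : r < 1 :=
    ENNReal.div_lt_of_lt_mul' (by rw [mul_one]; exact_mod_cast Nat.sub_lt hQ one_pos)
  refine ae_iff.2 (le_antisymm ?_ (zero_le))
  refine ge_of_tendsto (ENNReal.tendsto_pow_atTop_nhds_zero_of_lt_one hr)
    (Eventually.of_forall fun m => ?_)
  obtain ⟨f, hf, hopen, hval⟩ := hP m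
  let s : Finset (Fin m → Q) := Fintype.piFinset fun _ => Finset.univ.erase y
  have hs : s.card = (Fintype.card Q - 1) ^ m := by
    simp [s, Finset.card_erase_of_mem]
  refine (measure_mono fun x hx => ?_ : μ {x | ¬P x} ≤ μ (f ⁻¹' s)).trans ?_
  · exact Fintype.mem_piFinset.2 fun i =>
      Finset.mem_erase.2 ⟨fun h => hx (hval x i h), Finset.mem_univ _⟩
  · have h := measure_preimage_mul_card μ f hf hopen s
    rw [hs, Fintype.card_fun, Fintype.card_fin, Nat.cast_pow, Nat.cast_pow] at h
    rw [show r ^ m = ((Fintype.card Q - 1 : ℕ) : ℝ≥0∞) ^ m / (Fintype.card Q : ℝ≥0∞) ^ m by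
      simp only [r, div_eq_mul_inv, mul_pow, ENNReal.inv_pow]]
    exact ((ENNReal.eq_div_iff (pow_ne_zero _ (by exact_mod_cast hQ.ne'))
      (ENNReal.pow_ne_top (ENNReal.natCast_ne_top _))).2 (by rw [mul_comm]; exact h)).le

end Fermat.Agent.FreeGenerators
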